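import Mathlib
import Fermat.Agent.MU.S36.Ig.EpsGen
import Fermat.Agent.MU.S48.W.A1.Final

section MergeWrap_S48_W_G_Kron_FrickeAmb -- from S48/W/G/Kron/FrickeAmb.lean

set_option autoImplicit false

noncomputable section

namespace Fermat.Agent.S48WKron

open UpperHalfPlane Fermat.Agent.S24 Fermat.Agent.S48WA1
open scoped MatrixGroups Manifold

/-- the row vector `(r, s) γ` is nonzero modulo `M` if `(r, s)` is. -/
theorem isNZ_act {M : ℕ} {r s : ℤ} (h : IsNZ M r s) (γ : SL(2, ℤ)) :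
    IsNZ M (actL γ r s) (actR γ r s) := by
  intro hdvd
  apply h
  have hdet : γ 0 0 * γ 1 1 - γ 0 1 * γ 1 0 = 1 := by
    have := γ.det_coe
    rw [Matrix.det_fin_two] at this
    exact this
  obtain ⟨k, hk⟩ := hdvd.1
  obtain ⟨l, hl⟩ := hdvd.2
  unfold actL at hk
  unfold actR at hl
  constructor
  · refine ⟨k * γ 1 1 - l * γ 1 0, ?_⟩
    linear_combination (-r) * hdet + γ 1 1 * hk - γ 1 0 * hl
  · refine ⟨l * γ 0 0 - k * γ 0 1, ?_⟩
    linear_combination (-s) * hdet + γ 0 0 * hl - γ 0 1 * hk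

/-- for `γ ∈ Γ(M)` the row vector `(r, s) γ` is congruent to `(r, s)` modulo `M`. -/
theorem act_of_mem_Gamma {M : ℕ} {γ : SL(2, ℤ)} (hγ : γ ∈ CongruenceSubgroup.Gamma M)
    (r s : ℤ) :
    ∃ k l : ℤ, actL γ r s = r + M * k ∧ actR γ r s = s + M * l := by
  rw [CongruenceSubgroup.Gamma_mem] at hγ
  obtain ⟨h00, h01, h10, h11⟩ := hγ
  have e00 : (M : ℤ) ∣ γ 0 0 - 1 := by
    rw [← ZMod.intCast_zmod_eq_zero_iff_dvd]
    push_cast
    rw [h00, sub_self]
  have e01 : (M : ℤ) ∣ γ 0 1 := (ZMod.intCast_zmod_eq_zero_iff_dvd _ M).mp h01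
  have e10 : (M : ℤ) ∣ γ 1 0 := (ZMod.intCast_zmod_eq_zero_iff_dvd _ M).mp h10
  have e11 : (M : ℤ) ∣ γ 1 1 - 1 := by
    rw [← ZMod.intCast_zmod_eq_zero_iff_dvd]
    push_cast
    rw [h11, sub_self]
  obtain ⟨a, ha⟩ := e00
  obtain ⟨b, hb⟩ := e01
  obtain ⟨c, hc⟩ := e10
  obtain ⟨d, hd⟩ := e11
  refine ⟨r * a + s * c, r * b + s * d, ?_, ?_⟩
  · unfold actL
    linear_combination r * ha + s * hc
  · unfold actR
    linear_combination r * hb + s * hd

/-- **K1a**: the Fricke functions of level `M` are in the ambient ring of level `M`. -/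
theorem isAHb_frickeFun (M : ℕ) [NeZero M] (r s : ℤ) (h : IsNZ M r s) :
    IsAHb M (frickeFun M r s) := by
  refine ⟨frickeHol M r s h, fun γ hγ => ?_, fun γ => ?_⟩
  · rw [frickeSmul M r s γ]
    obtain ⟨k, l, hk, hl⟩ := act_of_mem_Gamma (inv_mem hγ) r s
    rw [hk, hl]
    unfold frickeFun
    rw [(xPeriod M r s h).1 k l]
  · rw [frickeSmul M r s γ]
    exact (frickeExp M).1 _ _ (isNZ_act h γ⁻¹)

/-- the statement of K1b (helper24): composition with `τ ↦ d τ` raises the level by `d`. -/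
def CompScale : Prop :=
  ∀ (m d : ℕ) [NeZero m] [NeZero d] [NeZero (m * d)] (f : Fun),
    IsAHb m f → IsAHb (m * d) (fun τ => f (scale d τ))

theorem isNZ_zero_right {M : ℕ} {a : ℤ} (ha : ¬ (M : ℤ) ∣ a) : IsNZ M a 0 := fun h => ha h.1

/-- **K1a**: `frickeOne M a` is of level `M * M`. -/
theorem isAHb_frickeOne (hK : CompScale) (M : ℕ) [NeZero M] [NeZero (M * M)] (a : ℤ)
    (ha : ¬ (M : ℤ) ∣ a) : IsAHb (M * M) (frickeOne M a) :=
  hK M M (frickeFun M a 0) (isAHb_frickeFun M a 0 (isNZ_zero_right ha))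

/-- **K1a**: `frickeOne M a ∘ scale p` is of level `M * M * p`. -/
theorem isAHb_frickeOne_scale (hK : CompScale) (M p : ℕ) [NeZero M] [NeZero p]
    [NeZero (M * M)] [NeZero (M * M * p)] (a : ℤ) (ha : ¬ (M : ℤ) ∣ a) :
    IsAHb (M * M * p) (fun τ => frickeOne M a (scale p τ)) :=
  hK (M * M) p (frickeOne M a) (isAHb_frickeOne hK M a ha)

end Fermat.Agent.S48WKron
end
end MergeWrap_S48_W_G_Kron_FrickeAmb
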